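import Fermat.Agent.EichlerShimura.Series
import Fermat.Agent.FF.Modular
import Fermat.Agent.Hecke.Curves

/-!
# The conjugates of a `T_p` correspondence over any field

Inside `k((t))`, `t ^ p = q`, the compositum of `K_N(q)` and of the `p + 1` series `f(q ^ p)`,
`f(ζ ^ b t)`. It is a function field, which replaces the curve of level `N p` in characteristic
`ℓ`, whether or not `ℓ = p`.
-/

noncomputable section

open IntermediateField AlgebraicCurve ModularCurve

namespace Fermat.Agent.Mazur.Kernel

variable (k : Type*) [Field k] (N p : ℕ) [NeZero N] [NeZero p]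

/-- `t ↦ c t`, over the constants. -/
def twistAlgHom (c : kˣ) : LaurentSeries k →ₐ[k] LaurentSeries k where
  __ := EichlerShimura.twist c
  commutes' a := by
    show EichlerShimura.twist c (algebraMap k (LaurentSeries k) a) = algebraMap k
      (LaurentSeries k) a
    ext n
    rw [algebraMap_laurentSeries_eq_single, EichlerShimura.twist_coeff]
    by_cases hn : n = 0
    · subst hn; simp
    · simp [HahnSeries.coeff_single_of_ne hn]

/-- The conjugates of `f(q ^ p)`, as series in `t`. -/
def conjSeries (ζ : kˣ) : Option (Fin p) → (LaurentSeries k →ₐ[k] LaurentSeries k)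
  | none => (qExpandAlgHomC k p).comp (qExpandAlgHomC k p)
  | some b => twistAlgHom k (ζ ^ (b : ℕ))

/-- The compositum of all conjugates. -/
def conjField (ζ : kˣ) : IntermediateField k (LaurentSeries k) :=
  IntermediateField.adjoin k (qExpandAlgHomC k p '' divisorExpansionsC k N ∪
    ⋃ i, conjSeries k p ζ i '' divisorExpansionsC k N)

variable {k N p} {ζ : kˣ}

omit [NeZero N] in
theorem map_mem_conjField {φ : LaurentSeries k →ₐ[k] LaurentSeries k}
    (hφ : ∀ y ∈ divisorExpansionsC k N, φ y ∈ conjField k N p ζ)
    (x : modularFunctionFieldFullC k N) : φ (x : LaurentSeries k) ∈ conjField k N p ζ := by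
  have h : (modularFunctionFieldFullC k N).map φ ≤ conjField k N p ζ := by
    rw [modularFunctionFieldFullC, IntermediateField.adjoin_map, IntermediateField.adjoin_le_iff]
    rintro _ ⟨y, hy, rfl⟩
    exact hφ y hy
  exact h ⟨x, x.2, rfl⟩

omit [NeZero N] in
theorem base_mem (x : modularFunctionFieldFullC k N) :
    qExpandAlgHomC k p (x : LaurentSeries k) ∈ conjField k N p ζ :=
  map_mem_conjField (fun y hy => subset_adjoin k _ (Or.inl ⟨y, hy, rfl⟩)) x

omit [NeZero N] in
theorem conj_mem (i : Option (Fin p)) (x : modularFunctionFieldFullC k N) :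
    conjSeries k p ζ i (x : LaurentSeries k) ∈ conjField k N p ζ :=
  map_mem_conjField (fun y hy => subset_adjoin k _ (Or.inr (Set.mem_iUnion.mpr ⟨i, y, hy, rfl⟩))) x

variable (k N p ζ)

/-- `f(q)` in the compositum. -/
def baseHom : modularFunctionFieldFullC k N →ₐ[k] conjField k N p ζ :=
  ((qExpandAlgHomC k p).comp (modularFunctionFieldFullC k N).val).codRestrict
    (conjField k N p ζ).toSubalgebra base_mem

/-- A conjugate of `f(q ^ p)` in the compositum. -/
def conjHom (i : Option (Fin p)) : modularFunctionFieldFullC k N →ₐ[k] conjField k N p ζ :=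
  ((conjSeries k p ζ i).comp (modularFunctionFieldFullC k N).val).codRestrict
    (conjField k N p ζ).toSubalgebra (conj_mem i)

variable {k N p ζ}

/-- An element of a modular function field is algebraic over any transcendental one, and this is
preserved by endomorphisms of `k((t))`. -/
theorem isAlgebraic_map {M : ℕ} [NeZero M] (φ : LaurentSeries k →ₐ[k] LaurentSeries k)
    {x y : LaurentSeries k} (hx : x ∈ modularFunctionFieldFullC k M)
    (hy : y ∈ modularFunctionFieldFullC k M) (htr : Transcendental k x) :
    IsAlgebraic k⟮φ x⟯ (φ y) := by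
  have htr' : Transcendental k (⟨x, hx⟩ : modularFunctionFieldFullC k M) := fun h =>
    htr (h.algHom (modularFunctionFieldFullC k M).val)
  have := FF.finiteDimensional_adjoin_of_transcendental htr'
  have halg : IsAlgebraic k⟮(⟨x, hx⟩ : modularFunctionFieldFullC k M)⟯
      (⟨y, hy⟩ : modularFunctionFieldFullC k M) := Algebra.IsAlgebraic.isAlgebraic _
  let ψ : modularFunctionFieldFullC k M →ₐ[k] LaurentSeries k :=
    φ.comp (modularFunctionFieldFullC k M).val
  have hmap : (k⟮(⟨x, hx⟩ : modularFunctionFieldFullC k M)⟯).map ψ = k⟮φ x⟯ := by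
    rw [IntermediateField.adjoin_map, Set.image_singleton]
    rfl
  let f : k⟮(⟨x, hx⟩ : modularFunctionFieldFullC k M)⟯ →ₐ[k] k⟮φ x⟯ :=
    (ψ.comp (k⟮(⟨x, hx⟩ : modularFunctionFieldFullC k M)⟯).val).codRestrict k⟮φ x⟯.toSubalgebra
      fun z => hmap ▸ ⟨z, z.2, rfl⟩
  exact halg.ringHom_of_comp_eq f.toRingHom ψ.toRingHom f.toRingHom.injective
      (RingHom.ext fun z => rfl)

theorem transcendental_qExpand_j (d : ℕ) [NeZero d] :
    Transcendental k (qExpand k d (jqModC k)) := by
  intro h
  exact MF.transcendental_jqModC ((isAlgebraic_algHom_iff (qExpandAlgHomC k d)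
    (qExpand_injective (R := k) (N := d))).mp h)

/-- `twist c` fixes series in `q` when `c ^ p = 1`. -/
theorem twistAlgHom_qExpand {c : kˣ} (hc : c ^ p = 1) (x : LaurentSeries k) :
    twistAlgHom k c (qExpand k p x) = qExpand k p x :=
  EichlerShimura.twist_qExpand_of_pow_eq_one c p hc x

variable (hζ : ζ ^ p = 1)

include hζ in
theorem isFunctionField_conjField : FF.IsFunctionField k (conjField k N p ζ) := by
  refine FF.isFunctionField_adjoin (transcendental_qExpand_j p) _
    (((FF.finite_divisorExpansionsC k N).image _).union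
      (Set.finite_iUnion fun i => (FF.finite_divisorExpansionsC k N).image _)) ?_ ?_
  · have h := base_mem (p := p) (ζ := ζ) ⟨_, jqModC_mem_full k N⟩
    exact h
  · have hp0 : ∀ d : ℕ, d ≠ 0 → p * d ≠ 0 := fun d hd => mul_ne_zero (NeZero.ne p) hd
    rintro _ (⟨_, ⟨d, hd, hdN, rfl⟩, rfl⟩ | h)
    · exact isAlgebraic_map (qExpandAlgHomC k p) (jqModC_mem_full k (N * p))
        (jqModCd_mem_full k (N * p) (hdN.trans (dvd_mul_right N p)))
        MF.transcendental_jqModC
    · obtain ⟨i, _, ⟨d, hd, hdN, rfl⟩, rfl⟩ := Set.mem_iUnion.mp h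
      cases i with
      | none =>
        have : NeZero (p * d) := ⟨hp0 d hd.out⟩
        have h1 := isAlgebraic_map (qExpandAlgHomC k p) (jqModC_mem_full k (N * p))
          (jqModCd_mem_full k (N * p) (d := p * d)
            (by rw [mul_comm N p]; exact mul_dvd_mul_left p hdN))
          MF.transcendental_jqModC
        rw [← qExpand_qExpand] at h1
        exact h1
      | some b =>
        have h1 := isAlgebraic_map (twistAlgHom k (ζ ^ (b : ℕ)))
          (jqModCd_mem_full k (N * p) (d := p) (dvd_mul_left p N))
          (jqModCd_mem_full k (N * p) (d := d) (hdN.trans (dvd_mul_right N p)))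
          (transcendental_qExpand_j p)
        rw [twistAlgHom_qExpand (by rw [← pow_mul, mul_comm, pow_mul, hζ, one_pow])] at h1
        exact h1

end Fermat.Agent.Mazur.Kernel
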