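import Fermat.Agent.EichlerShimura.HeckeRelation
import Fermat.Agent.EichlerShimura.Riemann
import Fermat.Agent.Mazur.Kernel.Conjugates
import Fermat.Agent.Red.SameDegree

/-!
# Good reduction and `T_p` on divisors

If the reduction of `D` is principal, so is the reduction of `T_p D`, for every prime `p` prime to
the level, equal to the residue characteristic or not.
-/

noncomputable section

open IntermediateField AlgebraicCurve ModularCurve

namespace Fermat.Agent.Mazur.Kernel

local notation "Qbar" => AlgebraicClosure ℚ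

/-! ### Generalities on pullbacks -/

section General

variable {K F F' : Type*} [Field K] [IsAlgClosed K] [Field F] [Field F'] [Algebra K F]
    [Algebra K F']
  [FF.IsFunctionField K F] [FF.IsFunctionField K F'] [HasPrincipalDivisors K F'] (φ : F →ₐ[K] F')

/-- Pullback along a map of function fields. -/
def pull : Divisor K F →+ Divisor K F' :=
  Divisor.pullbackAlong φ (Hecke.isIntegralAlong φ)

omit [IsAlgClosed K] in
theorem pull_apply (D : Divisor K F) (w : Place K F') :
    pull φ D w = Place.ramificationIndexAlong φ w *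
      D (w.restrictAlong φ (Hecke.isIntegralAlong φ)) :=
  Divisor.pullbackAlong_apply φ _ D w

theorem pull_single_degree (P : Place K F) :
    ((pull φ (Finsupp.single P 1)).sum fun _ n => n) = (finrankAlong K φ : ℤ) := by
  have h := Divisor.degree_pullbackAlong φ (Hecke.isIntegralAlong φ)
    (Hecke.fundamentalIdentityAlong φ _) (Finsupp.single P 1)
  rw [Divisor.degree_single, FF.place_deg_eq_one, Nat.cast_one, mul_one, mul_one,
    FF.degree_eq_sum] at h
  exact h

theorem ramificationIndexAlong_le (w : Place K F') :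
    Place.ramificationIndexAlong φ w ≤ finrankAlong K φ := by
  classical
  set P := w.restrictAlong φ (Hecke.isIntegralAlong φ) with hP
  have hw : pull φ (Finsupp.single P 1) w = Place.ramificationIndexAlong φ w := by
    rw [pull_apply, Finsupp.single_eq_same, mul_one]
  by_cases h0 : Place.ramificationIndexAlong φ w = 0
  · omega
  have hmem : w ∈ (pull φ (Finsupp.single P 1)).support := by
    rw [Finsupp.mem_support_iff, hw]; exact_mod_cast h0
  have h := Finset.single_le_sum (f := fun v => pull φ (Finsupp.single P 1) v)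
    (fun v _ => by
      rw [pull_apply]
      refine mul_nonneg (Int.natCast_nonneg _) ?_
      rw [Finsupp.single_apply]; split <;> simp) hmem
  have hsum := pull_single_degree φ P
  rw [Finsupp.sum] at hsum
  rw [hsum, hw] at h
  exact_mod_cast h

theorem pull_injective : Function.Injective (pull φ) := by
  classical
  refine (injective_iff_map_eq_zero _).mpr fun D hD => Finsupp.ext fun P => ?_
  obtain ⟨w, hw⟩ : ∃ w, pull φ (Finsupp.single P 1) w ≠ 0 := by
    by_contra! h
    have hsum := pull_single_degree φ P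
    rw [show pull φ (Finsupp.single P 1) = 0 from Finsupp.ext h, Finsupp.sum_zero_index] at hsum
    exact (Hecke.finrankAlong_pos φ).ne (by exact_mod_cast hsum)
  rw [pull_apply, Finsupp.single_apply] at hw
  split at hw
  · next hP =>
    have h := DFunLike.congr_fun hD w
    rw [pull_apply, Finsupp.zero_apply] at h
    rw [Finsupp.zero_apply]
    rw [mul_one] at hw
    rw [← hP] at h
    exact (mul_eq_zero.mp h).resolve_left hw
  · simp at hw

omit [IsAlgClosed K] in
theorem pull_ord {D : Divisor K F} {f : F} (hD : ∀ P, D P = P.ord f) (w : Place K F') :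
    pull φ D w = w.ord (φ f) := by
  rw [pull_apply, hD, ← Place.ord_restrictAlong]

end General

theorem ord_prod {K F : Type*} [Field K] [Field F] [Algebra K F] (v : Place K F) {ι : Type*}
    (s : Finset ι) (f : ι → F) (hf : ∀ i ∈ s, f i ≠ 0) :
    v.ord (∏ i ∈ s, f i) = ∑ i ∈ s, v.ord (f i) := by
  classical
  induction s using Finset.induction_on with
  | empty =>
    rw [Finset.prod_empty, Finset.sum_empty, ← map_one (algebraMap K F)]
    exact FF.ord_algebraMap v 1
  | insert a s ha ih =>
    rw [Finset.prod_insert ha, Finset.sum_insert ha,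
      v.ord_mul (hf a (Finset.mem_insert_self a s))
        (Finset.prod_ne_zero_iff.mpr fun i hi => hf i (Finset.mem_insert_of_mem hi)),
      ih fun i hi => hf i (Finset.mem_insert_of_mem hi)]

/-! ### Integral series of level `N` reduce to modular functions -/

section Reduce

variable {N : ℕ} [NeZero N] {A : ValuationSubring Qbar}

local notation "𝕜" => IsLocalRing.ResidueField A
local notation "π" => IsLocalRing.residue A

omit [NeZero N] in
theorem exists_ratio (g : modularFunctionFieldFullC 𝕜 N) :
    ∃ a b : Red.integralFunctions A π N, Red.integralReduction A π N b ≠ 0 ∧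
      g * Red.integralReduction A π N b = Red.integralReduction A π N a := by
  obtain ⟨g, hg⟩ := g
  induction hg using IntermediateField.adjoin_induction with
  | mem y hy =>
    obtain ⟨d, hd, hdN, rfl⟩ := hy
    exact ⟨Red.jIntegral A π N d hdN, 1, by simp, by
      rw [map_one, mul_one]
      exact Subtype.ext (Red.coe_integralReduction_jIntegral A π N d hdN).symm⟩
  | algebraMap c =>
    obtain ⟨a, rfl⟩ := IsLocalRing.residue_surjective c
    exact ⟨⟨_, Red.algebraMap_mem_integralFunctions a⟩, 1, by simp, by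
      rw [map_one, mul_one, Red.integralReduction_algebraMap]; rfl⟩
  | add y z hy hz ihy ihz =>
    obtain ⟨a, b, hb, h⟩ := ihy
    obtain ⟨c, d, hd, h'⟩ := ihz
    refine ⟨a * d + c * b, b * d, by rw [map_mul]; exact mul_ne_zero hb hd, ?_⟩
    rw [map_add, map_mul, map_mul, map_mul, ← h, ← h']
    exact Subtype.ext (by simp only [MulMemClass.coe_mul, AddMemClass.coe_add]; ring)
  | inv y hy ih =>
    obtain ⟨a, b, hb, h⟩ := ih
    by_cases ha : Red.integralReduction A π N a = 0
    · rw [ha] at h
      refine ⟨0, 1, by simp, ?_⟩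
      have hy0 : y = 0 := congrArg Subtype.val ((mul_eq_zero.mp h).resolve_right hb)
      rw [map_one, mul_one, map_zero]
      exact Subtype.ext (by simp [hy0])
    · refine ⟨b, a, ha, ?_⟩
      have h1 : y * (Red.integralReduction A π N b : LaurentSeries 𝕜) =
          Red.integralReduction A π N a := congrArg Subtype.val h
      have hy0 : y ≠ 0 := fun h0 => ha (Subtype.ext (by rw [← h1, h0, zero_mul]; rfl))
      refine Subtype.ext ?_
      show y⁻¹ * (Red.integralReduction A π N a : LaurentSeries 𝕜) = _
      rw [← h1, inv_mul_cancel_left₀ hy0]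
  | mul y z hy hz ihy ihz =>
    obtain ⟨a, b, hb, h⟩ := ihy
    obtain ⟨c, d, hd, h'⟩ := ihz
    refine ⟨a * c, b * d, by rw [map_mul]; exact mul_ne_zero hb hd, ?_⟩
    rw [map_mul, map_mul, ← h, ← h']
    exact Subtype.ext (by simp only [MulMemClass.coe_mul]; ring)

variable {p : ℕ} [NeZero p]

/-- The reduction of `N_α(β y)` is the product of the conjugates of the reduction of `y`. -/
theorem exists_norm_series {ζ : Aˣ}
    (hemb : EichlerShimura.HeckeEmbeddings Qbar N p (Units.map A.subtype.toMonoidHom ζ))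
    (hfin : FiniteAlong Qbar (heckeAlphaBar Qbar N p))
    (y : LaurentSeries A) (hy : coeffMap A.subtype y ∈ modularFunctionFieldBar N) :
    letI := algebraAlong (heckeAlphaBar Qbar N p)
    ∃ w : LaurentSeries A,
      coeffMap A.subtype w = (Algebra.norm (modularFunctionFieldBar N)
        (heckeBetaBar Qbar N p ⟨coeffMap A.subtype y, hy⟩) : modularFunctionFieldBar N) ∧
      qExpand 𝕜 p (coeffMap π w) =
        ∏ i, conjSeries 𝕜 p (Units.map (π : A →* 𝕜) ζ) i (coeffMap π y) := by
  set Y : LaurentSeries A := qExpand A p (qExpand A p y) * ∏ b : Fin p, EichlerShimura.twist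
    (ζ ^ (b : ℕ)) y
    with hY
  have hY' := EichlerShimura.qExpand_normAlong_beta hemb hfin ⟨coeffMap A.subtype y, hy⟩
  obtain ⟨w, hw, hwY⟩ := EichlerShimura.exists_qExpand_eq (f := A.subtype) A.subtype_injective p Y
    (h := by
      rw [hY']
      simp only [hY, map_mul, map_prod, coeffMap_qExpand, EichlerShimura.coeffMap_twist, map_pow])
  refine ⟨w, hw, ?_⟩
  rw [← coeffMap_qExpand, hwY, hY, Fintype.prod_option]
  simp only [map_mul, map_prod, coeffMap_qExpand, EichlerShimura.coeffMap_twist, map_pow]
  rfl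

end Reduce

/-! ### The main statement -/

section Main

variable {N : ℕ} [NeZero N] {A : ValuationSubring Qbar} {p : ℕ} [NeZero p]

local notation "𝕜" => IsLocalRing.ResidueField A
local notation "π" => IsLocalRing.residue A

/-- `T_p` preserves the divisors with principal reduction. -/
theorem mapDomain_heckeDivBar_mem_principal [IsAlgClosed 𝕜] (hdeg : Red.SameDegree Qbar 𝕜 N)
    {ζ : Aˣ} (hζ : ζ ^ p = 1)
    (hemb : EichlerShimura.HeckeEmbeddings Qbar N p (Units.map A.subtype.toMonoidHom ζ))
    {r : Place Qbar (modularFunctionFieldBar N) → Place 𝕜 (modularFunctionFieldFullC 𝕜 N)}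
    (hr : IsPlaceReductionAlong A π N r) (hgen : PrincipalGeneratedByIntegral A π N)
    [HasPrincipalDivisors Qbar (modularFunctionFieldBar (N * p))]
    (hα : HeckeAlphaBarIntegral Qbar N p) (hβ : HeckeBetaBarIntegral Qbar N p)
    (hFI : FundamentalIdentityAlong Qbar (heckeBetaBar Qbar N p) hβ)
    (hfin : FiniteAlong Qbar (heckeAlphaBar Qbar N p))
    (hN : NormFormulaAlong Qbar (heckeAlphaBar Qbar N p) hfin)
    {D : Divisor Qbar (modularFunctionFieldBar N)}
    (hD : D ∈ Divisor.degZero (K := Qbar) (F := modularFunctionFieldBar N))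
    (hp : Finsupp.mapDomain r D ∈
      Divisor.principal (K := 𝕜) (F := modularFunctionFieldFullC 𝕜 N)) :
    Finsupp.mapDomain r (heckeDivBar hα hβ D) ∈
      Divisor.principal (K := 𝕜) (F := modularFunctionFieldFullC 𝕜 N) := by
  classical
  set ζk : 𝕜ˣ := Units.map (π : A →* 𝕜) ζ with hζk
  have hζk' : ζk ^ p = 1 := by rw [hζk, ← map_pow, hζ, map_one]
  have := isFunctionField_conjField (k := 𝕜) (N := N) (p := p) hζk'
  have : HasPrincipalDivisors 𝕜 (conjField 𝕜 N p ζk) := inferInstance
  set M := conjField 𝕜 N p ζk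
  let Φ : Divisor Qbar (modularFunctionFieldBar N) →+ Divisor 𝕜 M :=
    (pull (baseHom 𝕜 N p ζk)).comp
      ((Finsupp.mapDomain.addMonoidHom r).comp (heckeDivBar hα hβ)) -
    ∑ i, (pull (conjHom 𝕜 N p ζk i)).comp (Finsupp.mapDomain.addMonoidHom r)
  have hΦapp : ∀ E w, Φ E w =
      pull (baseHom 𝕜 N p ζk) (Finsupp.mapDomain r (heckeDivBar hα hβ E)) w -
      ∑ i, pull (conjHom 𝕜 N p ζk i) (Finsupp.mapDomain r E) w := fun E w => by
    simp only [Φ, AddMonoidHom.sub_apply, AddMonoidHom.finsetSum_apply, AddMonoidHom.comp_apply,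
      Finsupp.sub_apply, Finsupp.finsetSum_apply]
    rfl
  -- integral functions
  have hint : ∀ (y : LaurentSeries A) (hy : coeffMap A.subtype y ∈ modularFunctionFieldBar N)
      (hyk : coeffMap π y ∈ modularFunctionFieldFullC 𝕜 N), coeffMap π y ≠ 0 →
      ∃ g : modularFunctionFieldFullC 𝕜 N, g ≠ 0 ∧
        baseHom 𝕜 N p ζk g = ∏ i, conjHom 𝕜 N p ζk i ⟨coeffMap π y, hyk⟩ ∧
        ∀ E : Divisor Qbar (modularFunctionFieldBar N),
          (∀ P, E P = P.ord (⟨coeffMap A.subtype y, hy⟩ : modularFunctionFieldBar N)) →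
            ∀ Q, Finsupp.mapDomain r (heckeDivBar hα hβ E) Q = Q.ord g := by
    intro y hy hyk hne
    obtain ⟨w, hw, hwπ⟩ := exists_norm_series hemb hfin y hy
    let := algebraAlong (heckeAlphaBar Qbar N p)
    have hwy : coeffMap A.subtype w ∈ modularFunctionFieldBar N := by
      rw [hw]; exact SetLike.coe_mem _
    have hwk := Red.coeffMap_mem_fullC IsLocalRing.residue_surjective hdeg w hwy
    have hbase : baseHom 𝕜 N p ζk ⟨coeffMap π w, hwk⟩ =
        ∏ i, conjHom 𝕜 N p ζk i ⟨coeffMap π y, hyk⟩ := by
      refine Subtype.ext ?_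
      rw [SubmonoidClass.coe_finsetProd]
      exact hwπ
    have hne' : (⟨coeffMap π w, hwk⟩ : modularFunctionFieldFullC 𝕜 N) ≠ 0 := fun h => by
      rw [h, map_zero, eq_comm, Finset.prod_eq_zero_iff] at hbase
      obtain ⟨i, -, hi⟩ := hbase
      exact hne (congrArg Subtype.val ((map_eq_zero (conjHom 𝕜 N p ζk i)).mp hi))
    refine ⟨_, hne', hbase, fun E hE => hr.2 w hwy hwk (fun h => hne' (Subtype.ext h)) _
      fun P => ?_⟩
    have hf : (⟨coeffMap A.subtype y, hy⟩ : modularFunctionFieldBar N) ≠ 0 := fun h => hne (by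
      have h' : coeffMap A.subtype y = 0 := congrArg Subtype.val h
      rw [show y = 0 from EichlerShimura.coeffMap_injective (f := A.subtype) A.subtype_injective
        (by rw [h', map_zero]), map_zero])
    rw [EichlerShimura.heckeDivBar_div hα hβ hfin hN hf hE P]
    exact congrArg P.ord (Subtype.ext hw.symm)
  have hordprod : ∀ (f : modularFunctionFieldFullC 𝕜 N), f ≠ 0 → ∀ w : Place 𝕜 M,
      w.ord (∏ i, conjHom 𝕜 N p ζk i f) = ∑ i, w.ord (conjHom 𝕜 N p ζk i f) := fun f hf w =>
    ord_prod w _ _ fun i _ => (_root_.map_ne_zero _).mpr hf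
  -- rigidity
  have hzero : Φ D = 0 := by
    refine EichlerShimura.eq_zero_on_degZero_of_closure
      (EichlerShimura.boundedClasses_of_isFunctionField _ _) Φ
      (finrankAlong 𝕜 (baseHom 𝕜 N p ζk) * finrankAlong Qbar (heckeBetaBar Qbar N p) +
        ∑ i, finrankAlong 𝕜 (conjHom 𝕜 N p ζk i)) (fun P w => ?_) _ hgen ?_ hD
    · rw [hΦapp]
      refine (Int.natAbs_sub_le _ _).trans (Nat.add_le_add ?_ ?_)
      · rw [pull_apply, Int.natAbs_mul, Int.natAbs_natCast]
        refine Nat.mul_le_mul (ramificationIndexAlong_le _ w) ?_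
        refine (EichlerShimura.natAbs_mapDomain_le r _ _).trans ?_
        exact (EichlerShimura.absSum_correspondence_single (heckeBetaBar Qbar N p)
          (heckeAlphaBar Qbar N p) hβ
          hα hFI (fun P => FF.place_deg_eq_one P) P).le
      · refine (Int.natAbs_sum_le _ _).trans (Finset.sum_le_sum fun i _ => ?_)
        rw [pull_apply, Int.natAbs_mul, Int.natAbs_natCast, Finsupp.mapDomain_single,
          Finsupp.single_apply]
        refine le_trans ?_ (ramificationIndexAlong_le (conjHom 𝕜 N p ζk i) w)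
        split <;> simp
    · rintro E ⟨y, hy, hyk, hne, hE⟩
      obtain ⟨g, hg, hbase, hgE⟩ := hint y hy hyk hne
      refine Finsupp.ext fun w => ?_
      rw [hΦapp, Finsupp.zero_apply, sub_eq_zero, pull_ord _ (hgE E hE) w, hbase,
        hordprod _ (fun h => hne (congrArg Subtype.val h)) w]
      exact Finset.sum_congr rfl fun i _ => (pull_ord _ (hr.2 y hy hyk hne E hE) w).symm
  -- conclusion
  obtain ⟨g, hg0, hg⟩ := hp
  obtain ⟨a, b, hb, hab⟩ := exists_ratio (A := A) g
  have ha : Red.integralReduction A π N a ≠ 0 := by rw [← hab]; exact mul_ne_zero hg0 hb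
  obtain ⟨ya, hya, hyak⟩ := a.2
  obtain ⟨yb, hyb, hybk⟩ := b.2
  have hρa : Red.integralReduction A π N a = ⟨coeffMap π ya, hyak⟩ :=
    Subtype.ext (Red.coe_integralReduction A π N hya)
  have hρb : Red.integralReduction A π N b = ⟨coeffMap π yb, hybk⟩ :=
    Subtype.ext (Red.coe_integralReduction A π N hyb)
  obtain ⟨ga, hga, hbasea, -⟩ := hint ya (hya.symm ▸ a.1.2) hyak
    (fun h => ha (by rw [hρa]; exact Subtype.ext h))
  obtain ⟨gb, hgb, hbaseb, -⟩ := hint yb (hyb.symm ▸ b.1.2) hybk
    (fun h => hb (by rw [hρb]; exact Subtype.ext h))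
  refine ⟨ga / gb, div_ne_zero hga hgb, fun Q => ?_⟩
  have hpull : pull (baseHom 𝕜 N p ζk) (Finsupp.mapDomain r (heckeDivBar hα hβ D)) =
      pull (baseHom 𝕜 N p ζk) (FF.divOf (ga / gb)) := by
    refine Finsupp.ext fun w => ?_
    have h := DFunLike.congr_fun hzero w
    rw [hΦapp, Finsupp.zero_apply, sub_eq_zero] at h
    rw [h, pull_ord _ (FF.divOf_apply _) w, map_div₀,
      FF.ord_div w ((_root_.map_ne_zero _).mpr hga) ((_root_.map_ne_zero _).mpr hgb),
      hbasea, hbaseb, hordprod _ (fun h => ha (hρa.trans h)) w,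
      hordprod _ (fun h => hb (hρb.trans h)) w, ← Finset.sum_sub_distrib]
    refine Finset.sum_congr rfl fun i _ => ?_
    rw [pull_ord _ hg w, ← hρa, ← hρb, ← hab, map_mul,
      w.ord_mul ((_root_.map_ne_zero _).mpr hg0) ((_root_.map_ne_zero _).mpr hb)]
    ring
  rw [pull_injective _ hpull, FF.divOf_apply]

end Main

end Fermat.Agent.Mazur.Kernel
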