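import Fermat.Agent.EichlerShimura.Core
import Fermat.Agent.EichlerShimura.EmbeddingsMain
import Fermat.Agent.Gal.Basic
import Fermat.Agent.Hecke.Inputs
import Fermat.Agent.Mazur.Interface
import Fermat.Agent.Mazur.Kernel.Reduction

/-!
# The kernel of good reduction is stable under the good Hecke operators
-/

noncomputable section

open AlgebraicCurve ModularCurve

namespace Fermat.Agent.Mazur

local notation "Qbar" => AlgebraicClosure ℚ

variable (N : ℕ) [NeZero N]

/-- `T_p` preserves the kernel of reduction. -/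
theorem reductionModL_heckeOperatorBar_eq_zero {ℓ : ℕ} (hℓ : ℓ.Prime)
    (hℓN : ¬ ℓ ∣ N) {A : ValuationSubring Qbar} (hA : A.LiesOverPrime ℓ) (q : Nat.Primes)
    (hq : ¬ (q : ℕ) ∣ N) {y : JZero N} (hy : reductionModL A N y = 0) :
    reductionModL A N (heckeOperatorBar N q y) = 0 := by
  classical
  by_cases h : ReductionInputsModL A N
  swap
  · rw [reductionModL_of_not h]; rfl
  have : Fact ℓ.Prime := ⟨hℓ⟩
  have : Fact (q : ℕ).Prime := ⟨q.2⟩
  have : NeZero (q : ℕ) := ⟨q.2.ne_zero⟩
  have : IsAlgClosed (IsLocalRing.ResidueField A) := Gal.residueField_isAlgClosed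
  obtain ⟨ζ, hζ, hprim⟩ := EichlerShimura.exists_primitiveRoot_unit (A := A) q.2
  obtain ⟨hα, hβ, hP, hfin, hFI, hN⟩ := Hecke.heckeInputsAlong_bar N (q : ℕ)
  have := hP
  obtain ⟨D, rfl⟩ := Pic0.mk_surjective y
  rw [heckeOperatorBar_apply, heckeOperatorAlong_eq hα hβ hFI hfin hN]
  show reductionModL A N (Pic0.mk (Pic0.degZeroCorrespondence (heckeBetaBar Qbar N (q : ℕ))
    (heckeAlphaBar Qbar N (q : ℕ)) hβ hα hFI D)) = 0
  rw [reductionModL_mk h] at hy ⊢
  refine (QuotientAddGroup.eq_zero_iff _).mpr (AddSubgroup.mem_addSubgroupOf.mpr ?_)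
  exact Kernel.mapDomain_heckeDivBar_mem_principal (Red.sameDegree hℓN hA) hζ
      (EichlerShimura.heckeEmbeddings_of_prime hq _ hprim)
    (isPlaceReductionModL_placeReductionModL h) h.choose_spec.2 hα hβ hFI hfin hN D.2
    (AddSubgroup.mem_addSubgroupOf.mp ((QuotientAddGroup.eq_zero_iff _).mp hy))

/-- The kernels of good reduction are stable under the good Hecke operators. -/
theorem heckePreservesKernel : HeckePreservesKernel N := by
  intro h ℓ hℓ hℓN A hA t
  induction t using MvPolynomial.induction_on with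
  | C a =>
    intro y hy
    rw [show (MvPolynomial.C a : GoodHecke N) = (a : GoodHecke N) from
        (eq_intCast MvPolynomial.C a),
      map_intCast, Module.End.intCast_apply, map_zsmul, hy, smul_zero]
  | add f g hf hg =>
    intro y hy
    rw [map_add, LinearMap.add_apply, map_add, hf y hy, hg y hy, add_zero]
  | mul_X f q hf =>
    intro y hy
    rw [map_mul, Module.End.mul_apply]
    refine hf _ ?_
    rw [jAct_X]
    exact reductionModL_heckeOperatorBar_eq_zero N hℓ hℓN hA q.1 q.2 hy

end Fermat.Agent.Mazur
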